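import Mathlib.RingTheory.Valuation.ValuationSubring
import Mathlib.RingTheory.IntegralClosure.IsIntegralClosure.Basic
import Mathlib.Algebra.Polynomial.EraseLead

/-!
# A valuation ring containing an integrally closed ring `R` is a localization of `R`
(elementwise form), as soon as every element of the valuation ring is a root of a polynomial
over `R` having a coefficient which is a unit of the valuation ring.

This is the classical `u, u⁻¹`-lemma (Seidenberg / Kaplansky) in the form we need.
-/

set_option autoImplicit false

namespace Fermat.Agent.H53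

open Polynomial

variable {L : Type*} [Field L]

theorem nonunits_mul_mem (V : ValuationSubring L) {a x : L} (ha : a ∈ V.nonunits)
    (hx : x ∈ V) : a * x ∈ V.nonunits := by
  rw [ValuationSubring.mem_nonunits_iff] at ha ⊢
  rw [map_mul]
  have hx' : V.valuation x ≤ 1 := (V.valuation_le_one_iff x).mpr hx
  calc V.valuation a * V.valuation x ≤ V.valuation a * 1 := by gcongr
    _ = V.valuation a := mul_one _
    _ < 1 := ha

theorem not_mem_nonunits_add (V : ValuationSubring L) {a c : L} (ha : a ∉ V.nonunits)
    (hc : c ∈ V.nonunits) : a + c ∉ V.nonunits := by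
  intro h
  apply ha
  have : a = (a + c) - c := by ring
  rw [this]
  exact sub_mem h hc

/-- Kaplansky's induction: if `x ∈ V` is a root of a polynomial over `R` (with `R → L` landing in
the valuation ring `V` and integrally closed in `L`) one of whose coefficients is a unit in `V`,
then `x = b / s` with `b, s ∈ R` and `s` a unit in `V`. -/
theorem exists_smul_mem_of_aeval_eq_zero {R : Type*} [CommRing R] [Algebra R L]
    (V : ValuationSubring L)
    (hint : ∀ x : L, IsIntegral R x → ∃ r : R, algebraMap R L r = x)
    (n : ℕ) : ∀ p : R[X], p.natDegree ≤ n → (∃ i, algebraMap R L (p.coeff i) ∉ V.nonunits) →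
      ∀ x ∈ V, aeval x p = 0 →
        ∃ s b : R, algebraMap R L s ∉ V.nonunits ∧ algebraMap R L b = algebraMap R L s * x := by
  induction n with
  | zero =>
    intro p hp hi x _ hpx
    obtain ⟨i, hi⟩ := hi
    exfalso
    have hp0 : p = C (p.coeff 0) := eq_C_of_natDegree_le_zero hp
    rw [hp0, aeval_C] at hpx
    apply hi
    rw [hp0, coeff_C]
    split_ifs with h
    · rw [hpx]; exact V.nonunits.zero_mem
    · rw [map_zero]; exact V.nonunits.zero_mem
  | succ n ih =>
    intro p hp hi x hx hpx
    obtain ⟨i, hi⟩ := hi
    by_cases hdeg : p.natDegree ≤ n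
    · exact ih p hdeg ⟨i, hi⟩ x hx hpx
    have hdeg' : p.natDegree = n + 1 := by omega
    obtain ⟨c, hc⟩ := hint _ (isIntegral_leadingCoeff_smul p x hpx)
    rw [Algebra.smul_def] at hc
    by_cases ha : algebraMap R L p.leadingCoeff ∈ V.nonunits
    · have hcV : algebraMap R L c ∈ V.nonunits := by
        rw [hc]; exact nonunits_mul_mem V ha hx
      have hp'deg : (p.eraseLead + C c * X ^ n).natDegree ≤ n := by
        refine (natDegree_add_le _ _).trans (max_le ?_ ?_)
        · have := eraseLead_natDegree_le p
          omega
        · exact natDegree_C_mul_X_pow_le c n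
      have hp'x : aeval x (p.eraseLead + C c * X ^ n) = 0 := by
        have h1 : aeval x p = aeval x p.eraseLead + aeval x (C p.leadingCoeff * X ^ p.natDegree) := by
          rw [← map_add, eraseLead_add_C_mul_X_pow]
        rw [map_add, map_mul, aeval_C, map_pow, aeval_X, hc]
        rw [hpx, map_mul, aeval_C, map_pow, aeval_X, hdeg', pow_succ] at h1
        rw [h1]; ring
      have hin : i ≤ n := by
        by_contra hlt
        have hi' : p.coeff i = 0 ∨ i = n + 1 := by
          rcases Nat.lt_or_ge (n + 1) i with h | h
          · left; exact coeff_eq_zero_of_natDegree_lt (by omega)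
          · right; omega
        rcases hi' with h0 | h1
        · apply hi; rw [h0, map_zero]; exact V.nonunits.zero_mem
        · apply hi
          have : p.coeff i = p.leadingCoeff := by rw [h1, ← hdeg']; rfl
          rw [this]; exact ha
      have hcoeff : algebraMap R L ((p.eraseLead + C c * X ^ n).coeff i) ∉ V.nonunits := by
        rw [coeff_add, eraseLead_coeff_of_ne i (by omega), coeff_C_mul_X_pow, map_add]
        split_ifs with h
        · exact not_mem_nonunits_add V hi hcV
        · rw [map_zero, add_zero]; exact hi
      exact ih _ hp'deg ⟨i, hcoeff⟩ x hx hp'x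
    · exact ⟨p.leadingCoeff, c, ha, hc⟩

end Fermat.Agent.H53
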