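import Mathlib.RingTheory.Invariant.Profinite
import Mathlib.FieldTheory.Galois.Profinite
import Mathlib.FieldTheory.Galois.Infinite
import Mathlib.FieldTheory.KrullTopology
import Mathlib.RingTheory.Valuation.LocalSubring
import Mathlib.RingTheory.Valuation.RamificationGroup
import Mathlib.FieldTheory.IsAlgClosed.AlgebraicClosure
import Mathlib.RingTheory.Polynomial.Content
import Mathlib.RingTheory.Localization.Integral
import Fermat.Prelude.Def_EllipticCurve_FrobeniusTrace
import Fermat.Prelude.Def_FLTPrelim_Ramification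
import Fermat.Agent.H53.ValuationLocalization

/-!
# Existence of Frobenius elements

For every prime `ℓ` and every valuation subring `A` of a Galois extension `L/ℚ` (e.g. `L = ℚ̄`)
lying over `ℓ` (`A.LiesOverPrime ℓ`), there is `σ ∈ Gal(L/ℚ)` with `A.IsFrobeniusAt σ ℓ`
(`exists_isFrobeniusAt`).  Moreover such an `A` exists (`exists_liesOverPrime`).
In particular (`exists_frobenius`): for every prime `ℓ` there are
`A : ValuationSubring (AlgebraicClosure ℚ)` and `σ` with
`A.LiesOverPrime ℓ ∧ A.IsFrobeniusAt σ ℓ`.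

The proof applies Mathlib's `Ideal.Quotient.stabilizerHom_surjective_of_profinite` to the ring of
all algebraic integers of `L`, and identifies `A` with the localization of that ring at its
center (`exists_intRing_fraction`).
-/

set_option autoImplicit false
set_option linter.style.haveILetI false

namespace Fermat.Agent.H53

open Polynomial
open scoped Pointwise

section General

variable (L : Type*) [Field L]

/-- The ring of algebraic integers of `L`, as a subring. -/
def intRing : Subring L := (integralClosure ℤ L).toSubring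

variable {L}

theorem mem_intRing_iff {x : L} : x ∈ intRing L ↔ IsIntegral ℤ x := Iff.rfl

theorem intRing_le (A : ValuationSubring L) : intRing L ≤ A.toSubring := by
  intro x hx
  have hx' : IsIntegral A x := IsIntegral.tower_top (R := ℤ) hx
  obtain ⟨y, hy⟩ := IsIntegrallyClosed.algebraMap_eq_of_integral hx'
  rw [← hy]
  exact y.2

instance intRing_algebra_isIntegral : Algebra.IsIntegral ℤ (intRing L) := by
  refine ⟨fun b => ?_⟩
  have hb : IsIntegral ℤ (b : L) := b.2
  exact (isIntegral_algebraMap_iff (B := L) (Subtype.val_injective)).mp hb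

/-- The prime of the ring of integers cut out by a valuation subring. -/
def centerIdeal (A : ValuationSubring L) : Ideal (intRing L) where
  carrier := {b | (b : L) ∈ A.nonunits}
  add_mem' := fun {a b} ha hb => by
    show ((a + b : intRing L) : L) ∈ A.nonunits
    rw [Subring.coe_add]
    exact add_mem ha hb
  zero_mem' := by
    show ((0 : intRing L) : L) ∈ A.nonunits
    rw [Subring.coe_zero]
    exact A.nonunits.zero_mem
  smul_mem' := fun c {b} hb => by
    show ((c • b : intRing L) : L) ∈ A.nonunits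
    rw [smul_eq_mul, Subring.coe_mul, mul_comm]
    exact nonunits_mul_mem A hb (intRing_le A c.2)

theorem mem_centerIdeal_iff (A : ValuationSubring L) {b : intRing L} :
    b ∈ centerIdeal A ↔ (b : L) ∈ A.nonunits := Iff.rfl

instance centerIdeal_isPrime (A : ValuationSubring L) : (centerIdeal A).IsPrime where
  ne_top' := by
    intro h
    have h1 : (1 : intRing L) ∈ centerIdeal A := h ▸ Submodule.mem_top
    rw [mem_centerIdeal_iff, ValuationSubring.mem_nonunits_iff, Subring.coe_one, map_one] at h1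
    exact lt_irrefl _ h1
  mem_or_mem' := by
    intro a b hab
    rw [mem_centerIdeal_iff, ValuationSubring.mem_nonunits_iff, Subring.coe_mul, map_mul] at hab
    rw [mem_centerIdeal_iff, mem_centerIdeal_iff, ValuationSubring.mem_nonunits_iff,
      ValuationSubring.mem_nonunits_iff]
    by_contra hcon
    rw [not_or, not_lt, not_lt] at hcon
    have ha : A.valuation (a : L) ≤ 1 := (A.valuation_le_one_iff _).mpr (intRing_le A a.2)
    have hb : A.valuation (b : L) ≤ 1 := (A.valuation_le_one_iff _).mpr (intRing_le A b.2)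
    have ha1 : A.valuation (a : L) = 1 := le_antisymm ha hcon.1
    have hb1 : A.valuation (b : L) = 1 := le_antisymm hb hcon.2
    rw [ha1, hb1, one_mul] at hab
    exact lt_irrefl _ hab

theorem intCast_not_mem_nonunits {ℓ : ℕ} (hℓ : ℓ.Prime) (A : ValuationSubring L)
    (hA : (ℓ : L) ∈ A.nonunits) {c : ℤ} (hc : ¬ (ℓ : ℤ) ∣ c) : (c : L) ∉ A.nonunits := by
  intro hcA
  have hcop : IsCoprime (ℓ : ℤ) c := (Nat.prime_iff_prime_int.mp hℓ).coprime_iff_not_dvd.mpr hc
  obtain ⟨u, v, huv⟩ := hcop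
  have h1 : ((u : L) * (ℓ : L) + (v : L) * (c : L)) = 1 := by
    exact_mod_cast congrArg (Int.cast (R := L)) huv
  have hu : (u : L) ∈ A := intCast_mem A u
  have hv : (v : L) ∈ A := intCast_mem A v
  have h2 : (1 : L) ∈ A.nonunits := by
    rw [← h1]
    refine add_mem ?_ ?_
    · rw [mul_comm]; exact nonunits_mul_mem A hA hu
    · rw [mul_comm]; exact nonunits_mul_mem A hcA hv
  rw [ValuationSubring.mem_nonunits_iff, map_one] at h2
  exact lt_irrefl _ h2

theorem inv_mem_of_not_mem_nonunits (A : ValuationSubring L) {u : L} (hu : u ∉ A.nonunits) :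
    u ≠ 0 ∧ u⁻¹ ∈ A := by
  rw [ValuationSubring.mem_nonunits_iff_or, not_or, not_not] at hu
  exact hu

theorem mem_nonunits_of_mul_mem_nonunits (A : ValuationSubring L) {u y : L}
    (hu : u ∉ A.nonunits) (huy : u * y ∈ A.nonunits) : y ∈ A.nonunits := by
  obtain ⟨hu0, huinv⟩ := inv_mem_of_not_mem_nonunits A hu
  have : y = (u * y) * u⁻¹ := by field_simp
  rw [this]
  exact nonunits_mul_mem A huy huinv

variable [Algebra ℚ L]

/-- A valuation subring of an algebraic extension of `ℚ` in which the prime `ℓ` is not a unit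
is the localization of the ring of integers at its center. -/
theorem exists_intRing_fraction [Algebra.IsAlgebraic ℚ L] {ℓ : ℕ} (hℓ : ℓ.Prime)
    (A : ValuationSubring L) (hA : (ℓ : L) ∈ A.nonunits) {x : L} (hx : x ∈ A) :
    ∃ s b : intRing L, (s : L) ∉ A.nonunits ∧ (b : L) = (s : L) * x := by
  haveI : CharZero L := algebraRat.charZero L
  have hxalg : IsAlgebraic ℤ x :=
    (IsFractionRing.isAlgebraic_iff ℤ ℚ L).mpr (Algebra.IsAlgebraic.isAlgebraic x)
  obtain ⟨p₀, hp₀, hp₀x⟩ := hxalg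
  have hpx : aeval x p₀.primPart = 0 := aeval_primPart_eq_zero hp₀ hp₀x
  have hprim : p₀.primPart.IsPrimitive := p₀.isPrimitive_primPart
  have hcoeff : ∃ i, ¬ (ℓ : ℤ) ∣ p₀.primPart.coeff i := by
    by_contra hcon
    rw [not_exists] at hcon
    have hdvd : C (ℓ : ℤ) ∣ p₀.primPart := by
      rw [C_dvd_iff_dvd_coeff]
      intro i
      exact not_not.mp (hcon i)
    have := hprim _ hdvd
    rw [Int.ofNat_isUnit, Nat.isUnit_iff] at this
    exact hℓ.one_lt.ne' this
  obtain ⟨i, hi⟩ := hcoeff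
  have hint : ∀ y : L, IsIntegral (intRing L) y →
      ∃ r : intRing L, algebraMap (intRing L) L r = y := by
    intro y hy
    have hy' : IsIntegral ℤ y := isIntegral_trans (R := ℤ) (A := intRing L) y hy
    exact ⟨⟨y, hy'⟩, rfl⟩
  have hq : aeval x (p₀.primPart.map (algebraMap ℤ (intRing L))) = 0 := by
    rw [aeval_map_algebraMap]; exact hpx
  have hqi : algebraMap (intRing L) L ((p₀.primPart.map (algebraMap ℤ (intRing L))).coeff i) ∉
      A.nonunits := by
    rw [coeff_map, ← IsScalarTower.algebraMap_apply, eq_intCast]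
    exact intCast_not_mem_nonunits hℓ A hA hi
  obtain ⟨s, b, hs, hb⟩ := exists_smul_mem_of_aeval_eq_zero A hint _ _ le_rfl ⟨i, hqi⟩ x hx hq
  exact ⟨s, b, hs, hb⟩

instance intRing_isInvariantSubring : IsInvariantSubring (L ≃ₐ[ℚ] L) (intRing L) where
  smul_mem σ x hx := by
    rw [mem_intRing_iff] at hx ⊢
    exact map_isIntegral_int (σ : L →+* L) hx

theorem intRing_coe_smul (σ : L ≃ₐ[ℚ] L) (b : intRing L) :
    ((σ • b : intRing L) : L) = σ (b : L) := rfl

theorem intRing_isInvariant [IsGalois ℚ L] :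
    Algebra.IsInvariant ℤ (intRing L) (L ≃ₐ[ℚ] L) := by
  refine ⟨fun b hb => ?_⟩
  have hfix : ∀ σ : L ≃ₐ[ℚ] L, σ (b : L) = b := fun σ => by
    have := congrArg Subtype.val (hb σ)
    exact this
  obtain ⟨q, hq⟩ := (InfiniteGalois.mem_range_algebraMap_iff_fixed (k := ℚ) (b : L)).mpr hfix
  have hbint : IsIntegral ℤ (b : L) := b.2
  rw [← hq] at hbint
  have hqint : IsIntegral ℤ q :=
    (isIntegral_algebraMap_iff (FaithfulSMul.algebraMap_injective ℚ L)).mp hbint
  obtain ⟨n, hn⟩ := IsIntegrallyClosed.algebraMap_eq_of_integral hqint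
  refine ⟨n, Subtype.ext ?_⟩
  rw [← hq, ← hn]
  simp

theorem intRing_continuousSMul [Algebra.IsIntegral ℚ L] :
    letI : TopologicalSpace (intRing L) := ⊥
    ContinuousSMul (L ≃ₐ[ℚ] L) (intRing L) := by
  letI : TopologicalSpace (intRing L) := ⊥
  haveI : DiscreteTopology (intRing L) := ⟨rfl⟩
  rw [continuousSMul_iff_stabilizer_isOpen]
  intro b
  have : (MulAction.stabilizer (L ≃ₐ[ℚ] L) b : Set (L ≃ₐ[ℚ] L)) =
      (MulAction.stabilizer (L ≃ₐ[ℚ] L) (b : L) : Set (L ≃ₐ[ℚ] L)) := by
    ext σ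
    simp only [SetLike.mem_coe, MulAction.mem_stabilizer_iff]
    exact Subtype.ext_iff
  rw [this]
  exact stabilizer_isOpen_of_isIntegral (K := ℚ) (b : L)

/-- There is an element of the Galois group stabilizing the center of `A` and inducing the
`ℓ`-power Frobenius on the residue field of the ring of integers at the center. -/
theorem exists_stabilizer_frobenius [IsGalois ℚ L] {ℓ : ℕ} (hℓ : ℓ.Prime)
    (A : ValuationSubring L) (hA : (ℓ : L) ∈ A.nonunits) :
    ∃ σ : L ≃ₐ[ℚ] L, σ • centerIdeal A = centerIdeal A ∧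
      ∀ b : intRing L, (σ • b) - b ^ ℓ ∈ centerIdeal A := by
  have hℓQ : ((ℓ : ℤ) : intRing L) ∈ centerIdeal A := by
    rw [mem_centerIdeal_iff]
    simpa using hA
  have hℓP : (ℓ : ℤ) ∈ (centerIdeal A).under ℤ := by
    rw [Ideal.mem_comap]
    simpa using hℓQ
  have hP0 : (centerIdeal A).under ℤ ≠ ⊥ := by
    intro h
    rw [h, Ideal.mem_bot] at hℓP
    exact hℓ.ne_zero (by exact_mod_cast hℓP)
  haveI hPmax : ((centerIdeal A).under ℤ).IsMaximal :=
    (Ideal.IsPrime.under ℤ (centerIdeal A)).isMaximal hP0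
  haveI hQmax : (centerIdeal A).IsMaximal :=
    Ideal.isMaximal_of_isIntegral_of_isMaximal_comap (R := ℤ) (centerIdeal A) hPmax
  letI : Field (intRing L ⧸ centerIdeal A) := Ideal.Quotient.field (centerIdeal A)
  haveI : CharP (intRing L ⧸ centerIdeal A) ℓ := by
    rw [CharP.charP_iff_prime_eq_zero hℓ]
    have : (Ideal.Quotient.mk (centerIdeal A)) ((ℓ : ℤ) : intRing L) = 0 :=
      Ideal.Quotient.eq_zero_iff_mem.mpr hℓQ
    simpa using this
  haveI : Fact ℓ.Prime := ⟨hℓ⟩
  let f : (intRing L ⧸ centerIdeal A) →ₐ[ℤ ⧸ (centerIdeal A).under ℤ]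
      (intRing L ⧸ centerIdeal A) :=
    { frobenius (intRing L ⧸ centerIdeal A) ℓ with
      commutes' := by
        intro r
        obtain ⟨n, rfl⟩ := Ideal.Quotient.mk_surjective r
        simp only [RingHom.toMonoidHom_eq_coe, OneHom.toFun_eq_coe, MonoidHom.toOneHom_coe,
          MonoidHom.coe_coe]
        rw [Ideal.Quotient.algebraMap_mk_of_liesOver]
        simp }
  have hf : Function.Bijective f := Algebra.IsAlgebraic.algHom_bijective f
  let φ : (intRing L ⧸ centerIdeal A) ≃ₐ[ℤ ⧸ (centerIdeal A).under ℤ]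
      (intRing L ⧸ centerIdeal A) := AlgEquiv.ofBijective f hf
  letI : TopologicalSpace (intRing L) := ⊥
  haveI : DiscreteTopology (intRing L) := ⟨rfl⟩
  haveI := intRing_continuousSMul (L := L)
  haveI := intRing_isInvariant (L := L)
  obtain ⟨σ, hσ⟩ := Ideal.Quotient.stabilizerHom_surjective_of_profinite (G := L ≃ₐ[ℚ] L)
    ((centerIdeal A).under ℤ) (centerIdeal A) φ
  refine ⟨σ.1, σ.2, fun b => ?_⟩
  have h1 := congrArg (fun g => g (Ideal.Quotient.mk (centerIdeal A) b)) hσ
  simp only [Ideal.Quotient.stabilizerHom_apply] at h1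
  have h2 : φ (Ideal.Quotient.mk (centerIdeal A) b) =
      Ideal.Quotient.mk (centerIdeal A) (b ^ ℓ) := by
    rw [map_pow]; rfl
  rw [h2] at h1
  exact Ideal.Quotient.eq.mp h1

theorem not_mem_nonunits_map_of_smul_centerIdeal_eq (A : ValuationSubring L) (τ : L ≃ₐ[ℚ] L)
    (hτ : τ • centerIdeal A = centerIdeal A) {s : intRing L} (hs : (s : L) ∉ A.nonunits) :
    τ (s : L) ∉ A.nonunits := by
  intro h
  apply hs
  have h1 : τ • s ∈ centerIdeal A := h
  rw [← hτ, Ideal.smul_mem_pointwise_smul_iff] at h1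
  exact h1

theorem map_mem_of_smul_centerIdeal_eq [Algebra.IsAlgebraic ℚ L] {ℓ : ℕ} (hℓ : ℓ.Prime)
    (A : ValuationSubring L) (hA : (ℓ : L) ∈ A.nonunits) (τ : L ≃ₐ[ℚ] L)
    (hτ : τ • centerIdeal A = centerIdeal A) {x : L} (hx : x ∈ A) : τ x ∈ A := by
  obtain ⟨s, b, hs, hb⟩ := exists_intRing_fraction hℓ A hA hx
  have hτs : τ (s : L) ∉ A.nonunits := not_mem_nonunits_map_of_smul_centerIdeal_eq A τ hτ hs
  obtain ⟨hτs0, hτsinv⟩ := inv_mem_of_not_mem_nonunits A hτs
  have hτb : τ (b : L) ∈ A := intRing_le A (τ • b).2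
  have : τ x = (τ (s : L))⁻¹ * τ (b : L) := by
    rw [hb, map_mul]
    field_simp
  rw [this]
  exact mul_mem hτsinv hτb

/-- **Existence of Frobenius elements at a given place.**  If `L/ℚ` is Galois (possibly
infinite), `ℓ` is a prime and `A` is a valuation subring of `L` lying over `ℓ`, then some
`σ ∈ Gal(L/ℚ)` is a Frobenius element at `A`. -/
theorem exists_isFrobeniusAt [IsGalois ℚ L] {ℓ : ℕ} (hℓ : ℓ.Prime)
    (A : ValuationSubring L) (hA : A.LiesOverPrime ℓ) :
    ∃ σ : L ≃ₐ[ℚ] L, A.IsFrobeniusAt σ ℓ := by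
  have hA' : (ℓ : L) ∈ A.nonunits := hA
  obtain ⟨σ, hσQ, hσF⟩ := exists_stabilizer_frobenius hℓ A hA'
  have hσinvQ : σ⁻¹ • centerIdeal A = centerIdeal A := by
    conv_lhs => rw [← hσQ]
    rw [inv_smul_smul]
  have hσ : σ ∈ A.decompositionSubgroup ℚ := by
    rw [MulAction.mem_stabilizer_iff]
    ext x
    rw [ValuationSubring.mem_pointwise_smul_iff_inv_smul_mem]
    constructor
    · intro h
      have := map_mem_of_smul_centerIdeal_eq hℓ A hA' σ hσQ h
      rwa [← AlgEquiv.smul_def, smul_inv_smul] at this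
    · intro h
      exact map_mem_of_smul_centerIdeal_eq hℓ A hA' σ⁻¹ hσinvQ h
  refine ⟨σ, hσ, fun x => ?_⟩
  obtain ⟨a, rfl⟩ := IsLocalRing.residue_surjective x
  rw [← IsLocalRing.ResidueField.residue_smul, ← map_pow, ← sub_eq_zero, ← map_sub,
    IsLocalRing.residue_eq_zero_iff, ← ValuationSubring.coe_mem_nonunits_iff]
  show σ (a : L) - (a : L) ^ ℓ ∈ A.nonunits
  obtain ⟨s, b, hs, hb⟩ := exists_intRing_fraction hℓ A hA' a.2
  have hFs : σ (s : L) - (s : L) ^ ℓ ∈ A.nonunits := hσF s
  have hFb : σ (b : L) - (b : L) ^ ℓ ∈ A.nonunits := hσF b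
  have hσs : σ (s : L) ∉ A.nonunits := not_mem_nonunits_map_of_smul_centerIdeal_eq A σ hσQ hs
  apply mem_nonunits_of_mul_mem_nonunits A hσs
  have : σ (s : L) * (σ (a : L) - (a : L) ^ ℓ) =
      (σ (b : L) - (b : L) ^ ℓ) - (σ (s : L) - (s : L) ^ ℓ) * (a : L) ^ ℓ := by
    rw [hb, map_mul]; ring
  rw [this]
  exact sub_mem hFb (nonunits_mul_mem A hFs (pow_mem a.2 ℓ))

end General

section Exists

/-- Every field of characteristic zero has a valuation subring lying over a given prime. -/
theorem exists_liesOverPrime (L : Type*) [Field L] [CharZero L] {ℓ : ℕ} (hℓ : ℓ.Prime) :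
    ∃ A : ValuationSubring L, A.LiesOverPrime ℓ := by
  let R : Subring L := (Int.castRingHom L).range
  let x : R := ⟨(ℓ : L), ⟨(ℓ : ℤ), by simp⟩⟩
  have hx : Ideal.span {x} ≠ ⊤ := by
    rw [Ne, Ideal.span_singleton_eq_top]
    intro hu
    obtain ⟨y, hy⟩ := isUnit_iff_exists_inv.mp hu
    obtain ⟨y, n, rfl⟩ := y
    have h1 : ((ℓ : ℤ) * n : ℤ) = 1 := by
      have := congrArg Subtype.val hy
      apply Int.cast_injective (α := L)
      simpa [x] using this
    have : IsUnit (ℓ : ℤ) := IsUnit.of_mul_eq_one _ h1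
    rw [Int.ofNat_isUnit, Nat.isUnit_iff] at this
    exact hℓ.one_lt.ne' this
  obtain ⟨A, -, hA⟩ := Ideal.image_subset_nonunits_valuationSubring _ hx
  refine ⟨A, ?_⟩
  exact hA ⟨x, Ideal.subset_span rfl, rfl⟩

/-- `ℚ̄/ℚ` is Galois, for the `ℚ`-algebra structure used throughout the prelude. -/
theorem isGalois_algebraicClosure_rat : IsGalois ℚ (AlgebraicClosure ℚ) :=
  (inferInstance : @IsGalois ℚ _ (AlgebraicClosure ℚ) _ (AlgebraicClosure.instAlgebra ℚ))

/-- **Existence of Frobenius elements at every place of `ℚ̄`.** -/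
theorem exists_isFrobeniusAt_algebraicClosure {ℓ : ℕ} (hℓ : ℓ.Prime)
    (A : ValuationSubring (AlgebraicClosure ℚ)) (hA : A.LiesOverPrime ℓ) :
    ∃ σ : AlgebraicClosure ℚ ≃ₐ[ℚ] AlgebraicClosure ℚ, A.IsFrobeniusAt σ ℓ :=
  haveI := isGalois_algebraicClosure_rat
  exists_isFrobeniusAt hℓ A hA

/-- **Existence of Frobenius elements**: for every prime `ℓ` there is a place of `ℚ̄` over `ℓ`
and a Frobenius element at that place. -/
theorem exists_frobenius {ℓ : ℕ} (hℓ : ℓ.Prime) :
    ∃ (A : ValuationSubring (AlgebraicClosure ℚ))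
      (σ : AlgebraicClosure ℚ ≃ₐ[ℚ] AlgebraicClosure ℚ),
      A.LiesOverPrime ℓ ∧ A.IsFrobeniusAt σ ℓ := by
  obtain ⟨A, hA⟩ := exists_liesOverPrime (AlgebraicClosure ℚ) hℓ
  obtain ⟨σ, hσ⟩ := exists_isFrobeniusAt_algebraicClosure hℓ A hA
  exact ⟨A, σ, hA, hσ⟩

end Exists

end Fermat.Agent.H53
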