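import Fermat.Agent.H78.ResidDefs

/-!
# Residual dictionary (P-DEFRING, subtask H78-RESID-res)

* `exists_lift_of_residual_isEquiv`: an adic representation whose residual representation is
  `ρbar` is isomorphic to a matrix representation lifting the gauge.
* `residual_isEquiv_of_isLift`: conversely a matrix representation lifting the gauge has
  residual representation `ρbar`.
-/

set_option autoImplicit false
set_option linter.style.haveILetI false
set_option linter.unusedSectionVars false

noncomputable section

namespace Fermat.Agent.H53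

open IsLocalRing Module
open scoped TensorProduct
open Fermat.Agent.H78

section general

variable {A : Type} [CommRing A] [IsLocalRing A]

/-- Coordinates of elements of `I • ⊤` lie in `I`. -/
theorem repr_mem_of_mem_smul_top {V : Type} [AddCommGroup V] [Module A V]
    (b : Basis (Fin 2) A V) (I : Ideal A) {x : V} (hx : x ∈ I • (⊤ : Submodule A V))
    (i : Fin 2) : b.repr x i ∈ I := by
  refine Submodule.smul_induction_on hx ?_ ?_
  · intro a ha v _
    rw [map_smul, Finsupp.smul_apply, smul_eq_mul]
    exact I.mul_mem_right _ ha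
  · intro x y hx hy
    rw [map_add, Finsupp.add_apply]
    exact I.add_mem hx hy

/-- The matrix homomorphism attached to a representation and a basis. -/
def matOfBasis (ρ : GaloisRepAdic A) (b : Basis (Fin 2) A ρ.V) : GalQ →* M2 A where
  toFun σ := LinearMap.toMatrix b b (ρ.ρ σ)
  map_one' := by rw [map_one]; exact LinearMap.toMatrix_one b
  map_mul' σ τ := by rw [map_mul]; exact LinearMap.toMatrix_mul b _ _

@[simp] theorem matOfBasis_apply (ρ : GaloisRepAdic A) (b : Basis (Fin 2) A ρ.V) (σ : GalQ) :
    matOfBasis ρ b σ = LinearMap.toMatrix b b (ρ.ρ σ) := rfl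

theorem matCont_matOfBasis (ρ : GaloisRepAdic A) (b : Basis (Fin 2) A ρ.V) :
    MatCont (matOfBasis ρ b) := by
  intro n
  obtain ⟨L, hL, h⟩ := ρ.isAdicContinuous n
  refine ⟨L, hL, fun σ hσ i j => ?_⟩
  have h1 : (matOfBasis ρ b σ - 1) i j = b.repr (ρ.ρ σ (b j) - b j) i := by
    rw [matOfBasis_apply, Matrix.sub_apply, LinearMap.toMatrix_apply, map_sub,
      Finsupp.sub_apply, Matrix.one_apply, b.repr_self, Finsupp.single_apply]
    congr 1
    by_cases hij : i = j
    · simp [hij]
    · simp [hij, Ne.symm hij]
  rw [h1]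
  exact repr_mem_of_mem_smul_top b _ (h σ hσ (b j)) i

/-- Multiplying coordinates by the matrix of `f` computes `f`. -/
theorem equivFun_symm_toMatrix_mulVec {V : Type} [AddCommGroup V] [Module A V]
    (b : Basis (Fin 2) A V) (f : V →ₗ[A] V) (x : Fin 2 → A) :
    b.equivFun.symm ((LinearMap.toMatrix b b f).mulVec x) = f (b.equivFun.symm x) := by
  apply b.equivFun.injective
  rw [LinearEquiv.apply_symm_apply]
  have h := LinearMap.toMatrix_mulVec_repr b b f (b.equivFun.symm x)
  have h2 : (⇑(b.repr (b.equivFun.symm x)) : Fin 2 → A) = x := b.equivFun.apply_symm_apply x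
  rw [h2] at h
  rw [h]
  rfl

/-- The representation attached to the matrices of `ρ` in a basis is equivalent to `ρ`. -/
def equivMatOfBasis (ρ : GaloisRepAdic A) (b : Basis (Fin 2) A ρ.V) :
    GaloisRepAdic.Equiv (ofMatrix (matOfBasis ρ b) (matCont_matOfBasis ρ b)) ρ where
  toLinearEquiv := (b.equivFun.symm : (Fin 2 → A) ≃ₗ[A] ρ.V)
  map_apply σ x := equivFun_symm_toMatrix_mulVec b (ρ.ρ σ) x

end general

section residual

variable {O : Type} [CommRing O] [IsLocalRing O]
variable {A : Type} [CommRing A] [IsLocalRing A] [Algebra O A] [IsLocalHom (algebraMap O A)]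

theorem residue_algebraMap_lift {G : Gauge O} {ρbar : ResidualGaloisRep (ResidueField O)}
    {β : Basis (Fin 2) (ResidueField O) ρbar.V} (hG : G.IsFor ρbar β) (σ : GalQ) (a c : Fin 2) :
    residue A (algebraMap O A (G.lift σ a c)) =
      ResidueField.map (algebraMap O A) (LinearMap.toMatrix β β (ρbar.ρ σ) a c) := by
  rw [← hG σ a c, ResidueField.map_residue]

/-- Matrix of the base change of the residual representation in the base-changed basis. -/
theorem toMatrix_baseChangeAlong (ρbar : ResidualGaloisRep (ResidueField O))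
    (β : Basis (Fin 2) (ResidueField O) ρbar.V) (σ : GalQ) (a c : Fin 2) :
    letI : Algebra (ResidueField O) (ResidueField A) :=
      (ResidueField.map (algebraMap O A)).toAlgebra
    LinearMap.toMatrix (Algebra.TensorProduct.basis (ResidueField A) β)
      (Algebra.TensorProduct.basis (ResidueField A) β)
      ((ρbar.baseChangeAlong (ResidueField.map (algebraMap O A))).ρ σ) a c =
      ResidueField.map (algebraMap O A) (LinearMap.toMatrix β β (ρbar.ρ σ) a c) := by
  letI : Algebra (ResidueField O) (ResidueField A) :=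
    (ResidueField.map (algebraMap O A)).toAlgebra
  have h := LinearMap.toMatrix_baseChange (ResidueField A) (ρbar.ρ σ) β β
  have h2 := congrFun (congrFun h a) c
  rw [Matrix.map_apply] at h2
  exact h2

/-- Matrix of the residual representation in the base-changed basis. -/
theorem toMatrix_residual (ρA : GaloisRepAdic A) (b : Basis (Fin 2) A ρA.V) (σ : GalQ)
    (a c : Fin 2) :
    LinearMap.toMatrix (Algebra.TensorProduct.basis (ResidueField A) b)
      (Algebra.TensorProduct.basis (ResidueField A) b) (ρA.residual.ρ σ) a c =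
      residue A (LinearMap.toMatrix b b (ρA.ρ σ) a c) := by
  have h := LinearMap.toMatrix_baseChange (ResidueField A) (ρA.ρ σ) b b
  have h2 := congrFun (congrFun h a) c
  rw [Matrix.map_apply] at h2
  exact h2


theorem sum_toMatrix_smul_basis {k : Type} [CommRing k] {V : Type} [AddCommGroup V]
    [Module k V] (b : Basis (Fin 2) k V) (f : V →ₗ[k] V) (i : Fin 2) :
    ∑ j, LinearMap.toMatrix b b f j i • b j = f (b i) := by
  simp only [LinearMap.toMatrix_apply]
  exact b.sum_repr (f (b i))

/-- Two endomorphisms with the same matrices in two bases are intertwined by the linear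
equivalence matching the bases. -/
theorem basis_equiv_intertwines {k : Type} [Field k] {V₁ V₂ : Type} [AddCommGroup V₁]
    [Module k V₁] [AddCommGroup V₂] [Module k V₂] (b₁ : Basis (Fin 2) k V₁)
    (b₂ : Basis (Fin 2) k V₂) (f₁ : V₁ →ₗ[k] V₁) (f₂ : V₂ →ₗ[k] V₂)
    (h : ∀ a c, LinearMap.toMatrix b₁ b₁ f₁ a c = LinearMap.toMatrix b₂ b₂ f₂ a c) (x : V₁) :
    b₁.equiv b₂ (Equiv.refl _) (f₁ x) = f₂ (b₁.equiv b₂ (Equiv.refl _) x) := by
  have key : (b₁.equiv b₂ (Equiv.refl _)).toLinearMap ∘ₗ f₁ =
      f₂ ∘ₗ (b₁.equiv b₂ (Equiv.refl _)).toLinearMap := by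
    refine b₁.ext fun i => ?_
    change (b₁.equiv b₂ (Equiv.refl _)) (f₁ (b₁ i)) = f₂ ((b₁.equiv b₂ (Equiv.refl _)) (b₁ i))
    rw [Basis.equiv_apply, Equiv.refl_apply, ← sum_toMatrix_smul_basis b₁ f₁ i,
      ← sum_toMatrix_smul_basis b₂ f₂ i, map_sum]
    refine Finset.sum_congr rfl fun j _ => ?_
    rw [map_smul, Basis.equiv_apply, Equiv.refl_apply, h]
  exact LinearMap.congr_fun key x

theorem residue_eq_of_isLift {G : Gauge O} {ρbar : ResidualGaloisRep (ResidueField O)}
    {β : Basis (Fin 2) (ResidueField O) ρbar.V} (hG : G.IsFor ρbar β) {r : GalQ → M2 A}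
    (hl : IsLift G r) (σ : GalQ) (a c : Fin 2) :
    residue A (r σ a c) =
      ResidueField.map (algebraMap O A) (LinearMap.toMatrix β β (ρbar.ρ σ) a c) := by
  rw [← residue_algebraMap_lift hG σ a c, ← sub_eq_zero, ← map_sub, residue_eq_zero_iff]
  exact hl σ a c

/-- The standard basis of the space of `ofMatrix`. -/
def stdBasis (r : GalQ →* M2 A) (hr : MatCont r) : Basis (Fin 2) A (ofMatrix r hr).V :=
  Pi.basisFun A (Fin 2)

theorem toMatrix_stdBasis (r : GalQ →* M2 A) (hr : MatCont r) (σ : GalQ) :
    LinearMap.toMatrix (stdBasis r hr) (stdBasis r hr) ((ofMatrix r hr).ρ σ) = r σ := by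
  change LinearMap.toMatrix (Pi.basisFun A (Fin 2)) (Pi.basisFun A (Fin 2))
    (Matrix.toLin' (r σ)) = r σ
  rw [LinearMap.toMatrix_eq_toMatrix', LinearMap.toMatrix'_toLin']

/-- A matrix representation lifting the gauge has residual representation `ρbar`. -/
theorem residual_isEquiv_of_isLift {G : Gauge O} {ρbar : ResidualGaloisRep (ResidueField O)}
    {β : Basis (Fin 2) (ResidueField O) ρbar.V} (hG : G.IsFor ρbar β) {r : GalQ →* M2 A}
    (hr : MatCont r) (hl : IsLift G r) :
    (ofMatrix r hr).residual.IsEquiv
      (ρbar.baseChangeAlong (ResidueField.map (algebraMap O A))) := by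
  letI : Algebra (ResidueField O) (ResidueField A) :=
    (ResidueField.map (algebraMap O A)).toAlgebra
  let b₁ : Basis (Fin 2) (ResidueField A) (ofMatrix r hr).residual.V :=
    Algebra.TensorProduct.basis (ResidueField A) (stdBasis r hr)
  let b₂ : Basis (Fin 2) (ResidueField A)
      (ρbar.baseChangeAlong (ResidueField.map (algebraMap O A))).V :=
    Algebra.TensorProduct.basis (ResidueField A) β
  refine ⟨⟨b₁.equiv b₂ (Equiv.refl _), fun σ x => ?_⟩⟩
  refine basis_equiv_intertwines b₁ b₂ _ _ (fun a c => ?_) x
  have h1 := toMatrix_residual (ofMatrix r hr) (stdBasis r hr) σ a c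
  have h2 := toMatrix_baseChangeAlong (A := A) ρbar β σ a c
  rw [toMatrix_stdBasis, residue_eq_of_isLift hG hl] at h1
  exact h1.trans h2.symm


/-- An adic representation whose residual representation is `ρbar` is isomorphic to a matrix
representation lifting the gauge. -/
theorem exists_lift_of_residual_isEquiv {G : Gauge O}
    {ρbar : ResidualGaloisRep (ResidueField O)}
    {β : Basis (Fin 2) (ResidueField O) ρbar.V} (hG : G.IsFor ρbar β) (ρA : GaloisRepAdic A)
    (h : ρA.residual.IsEquiv (ρbar.baseChangeAlong (ResidueField.map (algebraMap O A)))) :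
    ∃ (r : GalQ →* M2 A) (hr : MatCont r), (ofMatrix r hr).IsEquiv ρA ∧ IsLift G r := by
  letI : Algebra (ResidueField O) (ResidueField A) :=
    (ResidueField.map (algebraMap O A)).toAlgebra
  obtain ⟨e⟩ := h
  let β' : Basis (Fin 2) (ResidueField A)
      (ρbar.baseChangeAlong (ResidueField.map (algebraMap O A))).V :=
    Algebra.TensorProduct.basis (ResidueField A) β
  let w : Basis (Fin 2) (ResidueField A) (ResidueField A ⊗[A] ρA.V) :=
    β'.map e.toLinearEquiv.symm
  have hsurj : Function.Surjective (TensorProduct.mk A (ResidueField A) ρA.V 1) :=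
    TensorProduct.mk_surjective A ρA.V (ResidueField A) Ideal.Quotient.mk_surjective
  choose v hv using fun i => hsurj (w i)
  have hli : LinearIndependent A v := by
    refine IsLocalRing.linearIndependent_of_flat v ?_
    have hvw : (TensorProduct.mk A (ResidueField A) ρA.V 1 ∘ v) = w := funext hv
    rw [hvw]
    exact w.linearIndependent
  have hsp : Submodule.span A (Set.range v) = ⊤ :=
    IsLocalRing.span_eq_top_of_tmul_eq_basis v w hv
  let b : Basis (Fin 2) A ρA.V := Basis.mk hli hsp.ge
  have hb : Algebra.TensorProduct.basis (ResidueField A) b = w := by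
    refine Basis.eq_of_apply_eq fun i => ?_
    rw [Algebra.TensorProduct.basis_apply, Basis.mk_apply]
    exact hv i
  refine ⟨matOfBasis ρA b, matCont_matOfBasis ρA b, ⟨equivMatOfBasis ρA b⟩, fun σ a c => ?_⟩
  rw [matOfBasis_apply, ← residue_eq_zero_iff, map_sub, sub_eq_zero,
    residue_algebraMap_lift hG, ← toMatrix_residual, hb]
  have h2 := toMatrix_baseChangeAlong (A := A) ρbar β σ a c
  refine Eq.trans ?_ h2
  rw [LinearMap.toMatrix_apply, LinearMap.toMatrix_apply]
  change (β'.map e.toLinearEquiv.symm).repr (ρA.residual.ρ σ (β'.map e.toLinearEquiv.symm c)) a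
    = β'.repr ((ρbar.baseChangeAlong (ResidueField.map (algebraMap O A))).ρ σ (β' c)) a
  rw [Basis.map_repr, LinearEquiv.trans_apply, LinearEquiv.symm_symm, Basis.map_apply,
    e.map_apply, LinearEquiv.apply_symm_apply]

end residual

end Fermat.Agent.H53
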