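import Fermat.Prelude.Def_CuspForm_HeckeGaloisRepDatum
import Fermat.Prelude.Def_GaloisRep_DeformationRingData
import Fermat.Agent.H53.FrobeniusExists

/-!
# `R ↠ T`

The universal deformation ring surjects onto the Hecke ring `T` of a Hecke–Galois datum:
the map exists by universality, and it is surjective because `T` is generated over `𝒪` by
the `T_ℓ` (`ℓ ∉ S`), each of which is (minus) a coefficient of the characteristic polynomial of a
Frobenius element, hence lies in the image.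
-/

set_option autoImplicit false
set_option linter.style.haveILetI false

namespace Fermat.Agent.H53

open Polynomial
open scoped TensorProduct

/-- Equivalent adic Galois representations have the same characteristic polynomials. -/
theorem charpoly_eq_of_equiv {A : Type} [CommRing A] [IsLocalRing A] {ρ₁ ρ₂ : GaloisRepAdic A}
    (e : GaloisRepAdic.Equiv ρ₁ ρ₂) (σ : AlgebraicClosure ℚ ≃ₐ[ℚ] AlgebraicClosure ℚ) :
    LinearMap.charpoly (ρ₂.ρ σ) = LinearMap.charpoly (ρ₁.ρ σ) := by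
  have h : ρ₂.ρ σ = e.toLinearEquiv.conj (ρ₁.ρ σ) := by
    apply LinearMap.ext
    intro y
    rw [LinearEquiv.conj_apply, LinearMap.comp_apply, LinearMap.comp_apply,
      LinearEquiv.coe_coe, LinearEquiv.coe_coe, e.map_apply, LinearEquiv.apply_symm_apply]
  rw [h, LinearEquiv.charpoly_conj]

/-- The characteristic polynomial of a base-changed representation. -/
theorem charpoly_baseChangeAlong {A B : Type} [CommRing A] [IsLocalRing A] [CommRing B]
    [IsLocalRing B] (φ : A →+* B) (hφ : IsLocalHom φ) (ρ : GaloisRepAdic A)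
    (σ : AlgebraicClosure ℚ ≃ₐ[ℚ] AlgebraicClosure ℚ) :
    LinearMap.charpoly ((ρ.baseChangeAlong φ hφ).ρ σ) = (LinearMap.charpoly (ρ.ρ σ)).map φ := by
  letI : Algebra A B := φ.toAlgebra
  exact LinearMap.charpoly_baseChange (ρ.ρ σ) B

theorem surjective_of_heckeGaloisRepDatum {𝒪 : Type} [CommRing 𝒪] [IsDomain 𝒪]
    [IsDiscreteValuationRing 𝒪] [IsAdicComplete (IsLocalRing.maximalIdeal 𝒪) 𝒪]
    {R : Type} [CommRing R] [IsLocalRing R] [Algebra 𝒪 R] (ρR : GaloisRepAdic R)
    {N : ℕ} [NeZero N] {S : Set ℕ}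
    {θ : CuspForm.heckeAlgebra N 2 S →+* IsLocalRing.ResidueField 𝒪} {T : Type} [CommRing T]
    [IsLocalRing T] [IsNoetherianRing T] [IsAdicComplete (IsLocalRing.maximalIdeal T) T]
    [Algebra 𝒪 T] [IsLocalHom (algebraMap 𝒪 T)] [Module.Finite 𝒪 T] [Module.Free 𝒪 T]
    (H : CuspForm.HeckeGaloisRepDatum N S 𝒪 θ T) (hS : ∀ q : ℕ, q.Prime → q ∣ N → q ∈ S)
    (φ : R →ₐ[𝒪] T) (hφ : IsLocalHom (φ : R →+* T))
    (he : (ρR.baseChangeAlong (φ : R →+* T) hφ).IsEquiv H.ρ) :
    Function.Surjective φ := by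
  obtain ⟨e⟩ := he
  -- each `T_ℓ` is in the range
  have hT : ∀ (ℓ : ℕ) (hℓ : ℓ.Prime) (hℓN : ¬ ℓ ∣ N) (hℓS : ℓ ∉ S),
      H.π (CuspForm.heckeAlgebra.T hℓ hℓN hℓS) ∈ φ.range := by
    intro ℓ hℓ hℓN hℓS
    obtain ⟨A, σ, hA, hσ⟩ := exists_frobenius hℓ
    have h1 := H.charpoly_frob ℓ hℓ hℓN hℓS A hA σ hσ
    rw [charpoly_eq_of_equiv e σ, charpoly_baseChangeAlong] at h1
    have h2 := congrArg (fun p => Polynomial.coeff p 1) h1
    simp only [coeff_map, coeff_add, coeff_sub, coeff_X_pow, coeff_C_mul, coeff_X, coeff_C] at h2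
    norm_num at h2
    refine ⟨-(LinearMap.charpoly (ρR.ρ σ)).coeff 1, ?_⟩
    rw [map_neg]
    rw [neg_eq_iff_eq_neg]
    exact h2
  -- hence the whole image of `π` is in the range
  have hπ : ∀ (x : Module.End ℂ (CuspForm (CongruenceSubgroup.Gamma0 N) 2))
      (hx : x ∈ Algebra.adjoin ℤ (CuspForm.heckeGenerators N 2 S)),
      H.π ⟨x, hx⟩ ∈ φ.range := by
    intro x hx
    induction hx using Algebra.adjoin_induction with
    | mem x hx =>
      rcases hx with ⟨ℓ, hℓ, hℓN, hℓS, rfl⟩ | ⟨q, hqN, hq, hqS, rfl⟩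
      · exact hT ℓ hℓ hℓN hℓS
      · exact absurd (hS q hq hqN) hqS
    | algebraMap r =>
      have : (⟨algebraMap ℤ _ r, Subalgebra.algebraMap_mem _ r⟩ :
          CuspForm.heckeAlgebra N 2 S) = ((r : ℤ) : CuspForm.heckeAlgebra N 2 S) := by
        apply Subtype.ext
        simp
      rw [this, map_intCast]
      exact intCast_mem _ r
    | add x y hx hy hx' hy' =>
      have : (⟨x + y, Subalgebra.add_mem _ hx hy⟩ : CuspForm.heckeAlgebra N 2 S) =
          ⟨x, hx⟩ + ⟨y, hy⟩ := rfl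
      rw [this, map_add]
      exact add_mem hx' hy'
    | mul x y hx hy hx' hy' =>
      have : (⟨x * y, Subalgebra.mul_mem _ hx hy⟩ : CuspForm.heckeAlgebra N 2 S) =
          ⟨x, hx⟩ * ⟨y, hy⟩ := rfl
      rw [this, map_mul]
      exact mul_mem hx' hy'
  have hle : Algebra.adjoin 𝒪 (Set.range H.π) ≤ φ.range := by
    apply Algebra.adjoin_le
    rintro _ ⟨t, rfl⟩
    exact hπ t.1 t.2
  rw [H.adjoin_range_π, top_le_iff] at hle
  exact AlgHom.range_eq_top φ |>.mp hle

end Fermat.Agent.H53
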